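import Fermat.Agent.S13.TwoAdic.XCore.Basic
import Fermat.Agent.S05.Core.G1

/-!
# S13 / TwoAdic / XCoreU (helper15): `G1_neg`, `G1_add`, `G1_sub` — independent proofs of the leaves
of `TwoAdic/XCore/G1.lean` (identical statements, binders made explicit).
-/

set_option autoImplicit false

namespace Fermat.Agent.S13.TwoAdic.XCoreU

theorem G1_neg {K : Type*} [Field K] {Γ₀ : Type*} [LinearOrderedCommGroupWithZero Γ₀]
    {b₂ a₄ : K} {G : Type*} [AddCommGroup G] (M : XModel K b₂ a₄ G) (v : Valuation K Γ₀)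
    {P : G} (hP : P ∈ M.G1 v) : -P ∈ M.G1 v := by
  rcases hP with h0 | ⟨x, hx, hlt⟩
  · rw [h0, neg_zero]
    exact M.zero_mem_G1 v
  · exact M.mem_G1_of_xc v ((M.xc_neg P).trans hx) hlt

theorem G1_add {K : Type*} [Field K] {Γ₀ : Type*} [LinearOrderedCommGroupWithZero Γ₀]
    {b₂ a₄ : K} {G : Type*} [AddCommGroup G] (M : XModel K b₂ a₄ G) (v : Valuation K Γ₀)
    (hb₂ : v b₂ ≤ 1) (ha₄ : v a₄ ≤ 1) {P Q : G} (hP : P ∈ M.G1 v)
    (hQ : Q ∈ M.G1 v) : P + Q ∈ M.G1 v := by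
  rcases hP with h0 | ⟨x₁, hx₁, h1⟩
  · rw [h0, zero_add]
    exact hQ
  rcases hQ with h0 | ⟨x₂, hx₂, h2⟩
  · rw [h0, add_zero]
    exact M.mem_G1_of_xc v hx₁ h1
  by_cases hne : x₁ = x₂
  · subst hne
    rcases M.eq_or_eq_neg hx₁ hx₂ with hQP | hQP
    · rw [hQP]
      by_cases hD : 4 * x₁ ^ 3 + b₂ * x₁ ^ 2 + 4 * a₄ * x₁ = 0
      · rw [(M.two hx₁).1 hD]
        exact M.zero_mem_G1 v
      · refine M.mem_G1_of_xc v ((M.two hx₁).2 hD) ?_
        have hx0 : 0 < v x₁ := lt_trans zero_lt_one h1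
        have hnum : v (x₁ ^ 2 - a₄) = v x₁ ^ 2 := by
          rw [Valuation.map_sub_eq_of_lt_left v, map_pow]
          rw [map_pow]
          exact lt_of_le_of_lt ha₄ (one_lt_pow₀ h1 two_ne_zero)
        have hx2 : v x₁ ^ 2 ≤ v x₁ ^ 3 := pow_le_pow_right₀ h1.le (by norm_num)
        have hx1 : v x₁ ≤ v x₁ ^ 3 := by
          calc v x₁ = v x₁ ^ 1 := (pow_one _).symm
            _ ≤ v x₁ ^ 3 := pow_le_pow_right₀ h1.le (by norm_num)
        have hden : v (4 * x₁ ^ 3 + b₂ * x₁ ^ 2 + 4 * a₄ * x₁) ≤ v x₁ ^ 3 := by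
          refine Valuation.map_add_le v (Valuation.map_add_le v ?_ ?_) ?_
          · refine le_trans (XCore.val_four_mul_le v _) ?_
            rw [map_pow]
          · rw [map_mul, map_pow]
            calc v b₂ * v x₁ ^ 2 ≤ 1 * v x₁ ^ 2 := mul_le_mul' hb₂ le_rfl
              _ = v x₁ ^ 2 := one_mul _
              _ ≤ v x₁ ^ 3 := hx2
          · rw [mul_assoc]
            refine le_trans (XCore.val_four_mul_le v _) ?_
            rw [map_mul]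
            calc v a₄ * v x₁ ≤ 1 * v x₁ := mul_le_mul' ha₄ le_rfl
              _ = v x₁ := one_mul _
              _ ≤ v x₁ ^ 3 := hx1
        have hDpos : 0 < v (4 * x₁ ^ 3 + b₂ * x₁ ^ 2 + 4 * a₄ * x₁) :=
          zero_lt_iff.mpr ((Valuation.ne_zero_iff v).mpr hD)
        rw [map_div₀, map_pow, hnum, one_lt_div₀ hDpos]
        refine lt_of_le_of_lt hden ?_
        have e : (v x₁ ^ 2) ^ 2 = v x₁ ^ 4 := by rw [← pow_mul]
        rw [e]
        exact pow_lt_pow_right₀ h1 (by norm_num)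
    · rw [hQP, add_neg_cancel]
      exact M.zero_mem_G1 v
  · obtain ⟨r₁, r₂, hr₁, -, hS, hPr⟩ := M.add_sub hx₁ hx₂ hne
    refine M.mem_G1_of_xc v hr₁ ?_
    have hd0 : v (x₁ - x₂) ≠ 0 := (Valuation.ne_zero_iff v).mpr (sub_ne_zero.mpr hne)
    have hdpos : 0 < v (x₁ - x₂) ^ 2 := pow_pos (zero_lt_iff.mpr hd0) 2
    have hd : v (x₁ - x₂) ≤ max (v x₁) (v x₂) := Valuation.map_sub v x₁ x₂
    have hmax : max (v x₁) (v x₂) < v x₁ * v x₂ := Fermat.Agent.S05.G1.max_lt_mul h1 h2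
    have h12 : 1 < v x₁ * v x₂ := Fermat.Agent.S05.G1.one_le_mul h1 h2
    have hpos : 0 < v x₁ * v x₂ := lt_trans zero_lt_one h12
    have hmax1 : 1 ≤ max (v x₁) (v x₂) := le_max_of_le_left h1.le
    have hnumP : v (x₁ * x₂ - a₄) = v x₁ * v x₂ := by
      rw [Valuation.map_sub_eq_of_lt_left v, map_mul]
      rw [map_mul]
      exact lt_of_le_of_lt ha₄ h12
    have hnumS : v (2 * (x₁ * x₂ + a₄) * (x₁ + x₂) + b₂ * x₁ * x₂)
        ≤ max (v x₁) (v x₂) * (v x₁ * v x₂) := by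
      refine Valuation.map_add_le v ?_ ?_
      · refine le_trans (XCore.val_T1_le v a₄ x₁ x₂) ?_
        rw [mul_comm]
        refine mul_le_mul' (Valuation.map_add v x₁ x₂) ?_
        refine Valuation.map_add_le v ?_ (le_trans ha₄ h12.le)
        rw [map_mul]
      · rw [map_mul, map_mul, mul_assoc]
        calc v b₂ * (v x₁ * v x₂) ≤ 1 * (v x₁ * v x₂) := mul_le_mul' hb₂ le_rfl
          _ ≤ max (v x₁) (v x₂) * (v x₁ * v x₂) := mul_le_mul' hmax1 le_rfl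
    have hSPr : v ((2 * (x₁ * x₂ + a₄) * (x₁ + x₂) + b₂ * x₁ * x₂) / (x₁ - x₂) ^ 2)
        < v ((x₁ * x₂ - a₄) ^ 2 / (x₁ - x₂) ^ 2) := by
      rw [map_div₀, map_div₀, map_pow, map_pow, hnumP]
      apply div_lt_div_of_pos_right _ hdpos
      calc v (2 * (x₁ * x₂ + a₄) * (x₁ + x₂) + b₂ * x₁ * x₂)
          ≤ max (v x₁) (v x₂) * (v x₁ * v x₂) := hnumS
        _ < (v x₁ * v x₂) * (v x₁ * v x₂) := mul_lt_mul_of_pos_right hmax hpos
        _ = (v x₁ * v x₂) ^ 2 := (pow_two _).symm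
    have hPr1 : 1 < v ((x₁ * x₂ - a₄) ^ 2 / (x₁ - x₂) ^ 2) := by
      rw [map_div₀, map_pow, map_pow, hnumP, one_lt_div₀ hdpos]
      exact pow_lt_pow_left₀ (lt_of_le_of_lt hd hmax) zero_le two_ne_zero
    exact Fermat.Agent.S05.G1.one_lt_of_sum_prod v hS hPr hSPr hPr1

theorem G1_sub {K : Type*} [Field K] {Γ₀ : Type*} [LinearOrderedCommGroupWithZero Γ₀]
    {b₂ a₄ : K} {G : Type*} [AddCommGroup G] (M : XModel K b₂ a₄ G) (v : Valuation K Γ₀)
    (hb₂ : v b₂ ≤ 1) (ha₄ : v a₄ ≤ 1) {P Q : G} (hP : P ∈ M.G1 v)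
    (hQ : Q ∈ M.G1 v) : P - Q ∈ M.G1 v := by
  rw [sub_eq_add_neg]
  exact G1_add M v hb₂ ha₄ hP (G1_neg M v hQ)

end Fermat.Agent.S13.TwoAdic.XCoreU
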