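import Fermat.Agent.S13.TwoAdic.XCore.Basic
import Fermat.Agent.S13.TwoAdic.XCoreU.G1_add

/-!
# S13 / TwoAdic / XCoreU: the kernel of reduction has no `n`-torsion for `n` a unit

Independent proof of the leaf `G1_torsion_free` (port of `Fermat/Agent/S05/Core/NoTorsion.lean` to
`XModel` without `v 2 = 1`), built on `XCoreU.G1_add`.
`ξ(R) = 1 / x(R)` for `R ≠ 0`, `ξ(0) = 0`; approximate parallelogram law
`ξ(P+Q) + ξ(P-Q) = F ξ(P) ξ(Q)` on `G1`, hence `v (ξ(m • R) - m² ξ(R)) < v ξ(R)` by induction.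
-/

set_option autoImplicit false

namespace Fermat.Agent.S13.TwoAdic.XCoreU

open Fermat.Agent.S13.TwoAdic.XCore (val_two_mul_le)

variable {K : Type*} [Field K] {Γ₀ : Type*} [LinearOrderedCommGroupWithZero Γ₀]
variable {b₂ a₄ : K} {G : Type*} [AddCommGroup G] (M : XModel K b₂ a₄ G) (v : Valuation K Γ₀)

namespace G1_torsion_free_aux

/-- The parameter `ξ = 1 / x` at infinity (`0` at the point at infinity). -/
noncomputable def xi (P : G) : K :=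
  match M.xc P with
  | none => 0
  | some x => x⁻¹

/-- The rational function expressing `ξ(P+Q) + ξ(P-Q)` through `ξ(P)` and `ξ(Q)`. -/
noncomputable def F (b₂ a₄ ξ₁ ξ₂ : K) : K :=
  (2 * (1 + a₄ * ξ₁ * ξ₂) * (ξ₁ + ξ₂) + b₂ * ξ₁ * ξ₂) / (1 - a₄ * ξ₁ * ξ₂) ^ 2

theorem xi_zero : xi M 0 = 0 := by
  unfold xi
  rw [M.xc_zero]

theorem xi_of_xc {P : G} {x : K} (h : M.xc P = some x) : xi M P = x⁻¹ := by
  unfold xi
  rw [h]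

theorem xi_neg (P : G) : xi M (-P) = xi M P := by
  unfold xi
  rw [M.xc_neg]

theorem val_xi_lt_one {P : G} (hP : P ∈ M.G1 v) : v (xi M P) < 1 := by
  by_cases h0 : P = 0
  · rw [h0, xi_zero, map_zero]
    exact zero_lt_one
  · obtain ⟨x, h⟩ := M.exists_xc_of_ne_zero h0
    have hX := M.one_lt_of_mem_G1 v hP h
    rw [xi_of_xc M h, map_inv₀]
    exact inv_lt_one_of_one_lt₀ hX

theorem val_xi_pos {P : G} (hP : P ∈ M.G1 v) (h0 : P ≠ 0) : 0 < v (xi M P) := by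
  obtain ⟨x, h⟩ := M.exists_xc_of_ne_zero h0
  have hX := M.one_lt_of_mem_G1 v hP h
  rw [xi_of_xc M h, map_inv₀]
  exact inv_pos.mpr (zero_lt_one.trans hX)

/-! ### Field identities -/

theorem F_zero_left (ξ : K) : F b₂ a₄ 0 ξ = 2 * ξ := by
  unfold F
  simp

theorem F_zero_right (ξ : K) : F b₂ a₄ ξ 0 = 2 * ξ := by
  unfold F
  simp

/-- The denominator of `F` at `(x₁⁻¹, x₂⁻¹)`. -/
theorem denom_ne_zero {x₁ x₂ : K} (hx1 : x₁ ≠ 0) (hx2 : x₂ ≠ 0) (hab : x₁ * x₂ - a₄ ≠ 0) :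
    1 - a₄ * x₁⁻¹ * x₂⁻¹ ≠ 0 := by
  have h : 1 - a₄ * x₁⁻¹ * x₂⁻¹ = (x₁ * x₂ - a₄) / (x₁ * x₂) := by
    field_simp
  rw [h]
  exact div_ne_zero hab (mul_ne_zero hx1 hx2)

/-- Chord case: `1/x(P+Q) + 1/x(P-Q)` in terms of `1/x(P)`, `1/x(Q)`. -/
theorem chord_identity {x₁ x₂ r₁ r₂ : K} (hx1 : x₁ ≠ 0) (hx2 : x₂ ≠ 0) (hne : x₁ ≠ x₂)
    (hab : x₁ * x₂ - a₄ ≠ 0)
    (hsum : r₁ + r₂ = (2 * (x₁ * x₂ + a₄) * (x₁ + x₂) + b₂ * x₁ * x₂) / (x₁ - x₂) ^ 2)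
    (hprod : r₁ * r₂ = (x₁ * x₂ - a₄) ^ 2 / (x₁ - x₂) ^ 2) :
    r₁⁻¹ + r₂⁻¹ = F b₂ a₄ x₁⁻¹ x₂⁻¹ := by
  have hd : x₁ - x₂ ≠ 0 := sub_ne_zero.mpr hne
  have hpm : r₁ * r₂ ≠ 0 := by
    rw [hprod]
    exact div_ne_zero (pow_ne_zero 2 hab) (pow_ne_zero 2 hd)
  have hr1 : r₁ ≠ 0 := left_ne_zero_of_mul hpm
  have hr2 : r₂ ≠ 0 := right_ne_zero_of_mul hpm
  have h1 : r₁⁻¹ + r₂⁻¹ = (r₁ + r₂) / (r₁ * r₂) := by
    field_simp
    ring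
  have hD : 1 - a₄ * x₁⁻¹ * x₂⁻¹ ≠ 0 := denom_ne_zero hx1 hx2 hab
  rw [h1, hsum, hprod]
  unfold F
  field_simp
  ring

/-- Tangent case: `F ξ ξ` for `ξ = 1/x` is `D / (x² - a₄)²`. -/
theorem tangent_identity {x : K} (hx : x ≠ 0) (hab : x * x - a₄ ≠ 0) :
    F b₂ a₄ x⁻¹ x⁻¹ = (4 * x ^ 3 + b₂ * x ^ 2 + 4 * a₄ * x) / (x ^ 2 - a₄) ^ 2 := by
  have hab' : x ^ 2 - a₄ ≠ 0 := by rwa [pow_two]
  have hD : 1 - a₄ * x⁻¹ * x⁻¹ ≠ 0 := denom_ne_zero hx hx hab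
  unfold F
  field_simp
  ring

/-- The error term of the approximate parallelogram law. -/
theorem F_sub_eq {ξ₁ ξ₂ : K} (hD : 1 - a₄ * ξ₁ * ξ₂ ≠ 0) :
    F b₂ a₄ ξ₁ ξ₂ - 2 * ξ₁ - 2 * ξ₂ =
      ξ₁ * ξ₂ * (b₂ + 2 * (ξ₁ + ξ₂) * a₄ * (3 - a₄ * ξ₁ * ξ₂)) / (1 - a₄ * ξ₁ * ξ₂) ^ 2 := by
  have hD2 : (1 - a₄ * ξ₁ * ξ₂) ^ 2 ≠ 0 := pow_ne_zero 2 hD
  unfold F
  rw [eq_div_iff hD2, sub_mul, sub_mul, div_mul_cancel₀ _ hD2]
  ring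

/-! ### Valuation estimates -/

theorem F_bound (hb₂ : v b₂ ≤ 1) (ha₄ : v a₄ ≤ 1) {ξ₁ ξ₂ : K} (h1 : v ξ₁ < 1) (h2 : v ξ₂ < 1) :
    v (F b₂ a₄ ξ₁ ξ₂ - 2 * ξ₁ - 2 * ξ₂) ≤ v ξ₁ * v ξ₂ := by
  have ht : v (a₄ * ξ₁ * ξ₂) < 1 := by
    have h12 : v (ξ₁ * ξ₂) < 1 := by
      rw [map_mul]
      exact lt_of_le_of_lt (mul_le_of_le_one_right' h2.le) h1
    rw [mul_assoc, map_mul]
    exact lt_of_le_of_lt (mul_le_of_le_one_left' ha₄) h12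
  have hD : v (1 - a₄ * ξ₁ * ξ₂) = 1 := Valuation.map_one_sub_of_lt v ht
  have hD0 : 1 - a₄ * ξ₁ * ξ₂ ≠ 0 := by
    intro h
    rw [h, map_zero] at hD
    exact zero_ne_one hD
  have hξ1 : ξ₁ ∈ v.integer := h1.le
  have hξ2 : ξ₂ ∈ v.integer := h2.le
  have ha' : a₄ ∈ v.integer := ha₄
  have hb' : b₂ ∈ v.integer := hb₂
  have hB : b₂ + 2 * (ξ₁ + ξ₂) * a₄ * (3 - a₄ * ξ₁ * ξ₂) ∈ v.integer :=
    add_mem hb'
      (mul_mem (mul_mem (mul_mem (ofNat_mem _ 2) (add_mem hξ1 hξ2)) ha')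
        (sub_mem (ofNat_mem _ 3) (mul_mem (mul_mem ha' hξ1) hξ2)))
  have hB' : v (b₂ + 2 * (ξ₁ + ξ₂) * a₄ * (3 - a₄ * ξ₁ * ξ₂)) ≤ 1 := hB
  rw [F_sub_eq hD0, map_div₀, map_pow, hD, one_pow, div_one, map_mul, map_mul]
  exact mul_le_of_le_one_right' hB'

/-- The `x`-coordinate of a nonzero point of `G1` is nonzero. -/
theorem x_ne_zero {x : K} (hx : 1 < v x) : x ≠ 0 := by
  intro h
  rw [h, map_zero] at hx
  exact lt_asymm hx zero_lt_one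

theorem mul_sub_ne_zero (ha₄ : v a₄ ≤ 1) {x₁ x₂ : K} (hx1 : 1 < v x₁) (hx2 : 1 < v x₂) :
    x₁ * x₂ - a₄ ≠ 0 := by
  intro h
  have h1 : v (x₁ * x₂) = v a₄ := by rw [sub_eq_zero.mp h]
  rw [map_mul] at h1
  have h3 : 1 < v x₁ * v x₂ := one_lt_mul'' hx1 hx2
  rw [h1] at h3
  exact not_lt_of_ge ha₄ h3

/-! ### The approximate parallelogram law on `G1` -/

/-- Doubling: `ξ(2P) = F ξ(P) ξ(P)` (also when `2P = 0`). -/
theorem xi_two (ha₄ : v a₄ ≤ 1) {P : G} {x : K} (h : M.xc P = some x) (hx : 1 < v x) :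
    xi M (P + P) = F b₂ a₄ x⁻¹ x⁻¹ := by
  have hx0 : x ≠ 0 := x_ne_zero v hx
  have hab : x * x - a₄ ≠ 0 := mul_sub_ne_zero v ha₄ hx hx
  rw [tangent_identity hx0 hab]
  by_cases hD : 4 * x ^ 3 + b₂ * x ^ 2 + 4 * a₄ * x = 0
  · rw [(M.two h).1 hD, xi_zero, hD, zero_div]
  · rw [xi_of_xc M ((M.two h).2 hD), inv_div]

theorem xi_add_sub (ha₄ : v a₄ ≤ 1) {P Q : G} (hP : P ∈ M.G1 v)
    (hQ : Q ∈ M.G1 v) : xi M (P + Q) + xi M (P - Q) = F b₂ a₄ (xi M P) (xi M Q) := by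
  by_cases hP0 : P = 0
  · rw [hP0, zero_add, zero_sub, xi_neg, xi_zero, F_zero_left]
    ring
  by_cases hQ0 : Q = 0
  · rw [hQ0, add_zero, sub_zero, xi_zero, F_zero_right]
    ring
  obtain ⟨x₁, h1⟩ := M.exists_xc_of_ne_zero hP0
  obtain ⟨x₂, hc2⟩ := M.exists_xc_of_ne_zero hQ0
  have hx1 := M.one_lt_of_mem_G1 v hP h1
  have hx2 := M.one_lt_of_mem_G1 v hQ hc2
  have hx10 : x₁ ≠ 0 := x_ne_zero v hx1
  have hx20 : x₂ ≠ 0 := x_ne_zero v hx2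
  rw [xi_of_xc M h1, xi_of_xc M hc2]
  by_cases hne : x₁ = x₂
  · subst hne
    have hT := xi_two M v ha₄ h1 hx1
    rcases M.eq_or_eq_neg h1 hc2 with hQP | hQP
    · rw [hQP, sub_self, xi_zero, add_zero]
      exact hT
    · rw [hQP, add_neg_cancel, xi_zero, zero_add, sub_neg_eq_add]
      exact hT
  · obtain ⟨r₁, r₂, hp, hm, hsum, hprod⟩ := M.add_sub h1 hc2 hne
    rw [xi_of_xc M hp, xi_of_xc M hm]
    exact chord_identity hx10 hx20 hne (mul_sub_ne_zero v ha₄ hx1 hx2) hsum hprod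

theorem nsmul_mem_G1 (hb₂ : v b₂ ≤ 1) (ha₄ : v a₄ ≤ 1) {R : G} (hR : R ∈ M.G1 v)
    (m : ℕ) : m • R ∈ M.G1 v := by
  induction m with
  | zero =>
    rw [zero_smul]
    exact M.zero_mem_G1 v
  | succ m ih =>
    rw [succ_nsmul]
    exact G1_add M v hb₂ ha₄ ih hR

/-- `ξ(m • R) ≡ m² ξ(R)` modulo `ξ(R) 𝔪`. -/
theorem val_xi_nsmul (hb₂ : v b₂ ≤ 1) (ha₄ : v a₄ ≤ 1) {R : G} (hR : R ∈ M.G1 v)
    (hR0 : R ≠ 0) (m : ℕ) :
    v (xi M (m • R) - (m : K) ^ 2 * xi M R) < v (xi M R) ∧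
      v (xi M ((m + 1) • R) - ((m + 1 : ℕ) : K) ^ 2 * xi M R) < v (xi M R) := by
  have hpos : 0 < v (xi M R) := val_xi_pos M v hR hR0
  induction m with
  | zero =>
    constructor
    · rw [zero_smul, xi_zero, Nat.cast_zero]
      simpa using hpos
    · rw [zero_add, one_smul, Nat.cast_one]
      simpa using hpos
  | succ m ih =>
    refine ⟨ih.2, ?_⟩
    have hP : (m + 1) • R ∈ M.G1 v := nsmul_mem_G1 M v hb₂ ha₄ hR (m + 1)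
    have hadd : (m + 1) • R + R = (m + 1 + 1) • R := (succ_nsmul R (m + 1)).symm
    have hsub : (m + 1) • R - R = m • R := by rw [succ_nsmul, add_sub_cancel_right]
    have hF := xi_add_sub M v ha₄ hP hR
    rw [hadd, hsub] at hF
    have hE := F_bound v hb₂ ha₄ (val_xi_lt_one M v hP) (val_xi_lt_one M v hR)
    have hE' : v (F b₂ a₄ (xi M ((m + 1) • R)) (xi M R) - 2 * xi M ((m + 1) • R) - 2 * xi M R)
        < v (xi M R) :=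
      lt_of_le_of_lt hE (mul_lt_of_lt_one_left hpos (val_xi_lt_one M v hP))
    have hid : xi M ((m + 1 + 1) • R) - ((m + 1 + 1 : ℕ) : K) ^ 2 * xi M R =
        (F b₂ a₄ (xi M ((m + 1) • R)) (xi M R) - 2 * xi M ((m + 1) • R) - 2 * xi M R)
          - (xi M (m • R) - (m : K) ^ 2 * xi M R)
          + 2 * (xi M ((m + 1) • R) - ((m + 1 : ℕ) : K) ^ 2 * xi M R) := by
      push_cast
      linear_combination hF
    rw [hid]
    refine Valuation.map_add_lt v (Valuation.map_sub_lt v hE' ih.1) ?_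
    exact lt_of_le_of_lt (val_two_mul_le v _) ih.2

end G1_torsion_free_aux

theorem G1_torsion_free {K : Type*} [Field K] {Γ₀ : Type*} [LinearOrderedCommGroupWithZero Γ₀]
    {b₂ a₄ : K} {G : Type*} [AddCommGroup G] (M : XModel K b₂ a₄ G) (v : Valuation K Γ₀)
    (hb₂ : v b₂ ≤ 1) (ha₄ : v a₄ ≤ 1) {R : G} (hR : R ∈ M.G1 v) {n : ℕ}
    (hn : v (n : K) = 1) (hnR : n • R = 0) : R = 0 := by
  by_contra hR0
  have key := (G1_torsion_free_aux.val_xi_nsmul M v hb₂ ha₄ hR hR0 n).1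
  rw [hnR, G1_torsion_free_aux.xi_zero, zero_sub, Valuation.map_neg, map_mul, map_pow, hn, one_pow,
    one_mul] at key
  exact lt_irrefl _ key

end Fermat.Agent.S13.TwoAdic.XCoreU
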