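import Fermat.Agent.S13.TwoAdic.XCore.Basic

/-!
# S13 / TwoAdic / XCoreU: `clip_of_den_eq_zero`

If the denominator `4x³ + b₂x² + 4a₄x` of the duplication formula vanishes, the clipped
valuation of `x` is one of the two extreme levels.
-/

set_option autoImplicit false

namespace Fermat.Agent.S13.TwoAdic.XCoreU

open Fermat.Agent.S05 (fold qt clip URConcl)

theorem clip_of_den_eq_zero {K : Type*} [Field K] {Γ₀ : Type*} [LinearOrderedCommGroupWithZero Γ₀]
    (v : Valuation K Γ₀) {b₂ a₄ x : K} (hb₂ : v b₂ = 1)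
    (ha₄ : v a₄ < 1) (hden : 4 * x ^ 3 + b₂ * x ^ 2 + 4 * a₄ * x = 0) :
    clip (v a₄) (v x) = v a₄ ∨ clip (v a₄) (v x) = 1 := by
  unfold clip
  by_cases hx : x = 0
  · left
    subst hx
    rw [map_zero, min_eq_right zero_le_one, max_eq_left zero_le]
  · have hq : 4 * x ^ 2 + b₂ * x + 4 * a₄ = 0 := by
      have h : x * (4 * x ^ 2 + b₂ * x + 4 * a₄) = 0 := by
        rw [← hden]; ring
      rcases mul_eq_zero.1 h with h | h
      · exact absurd h hx
      · exact h
    have hbx : b₂ * x = -(4 * x ^ 2 + 4 * a₄) := by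
      linear_combination hq
    have hvx : v x = v (4 * x ^ 2 + 4 * a₄) := by
      have h := congrArg v hbx
      rw [map_mul, hb₂, one_mul, Valuation.map_neg] at h
      exact h
    have hle : v x ≤ max (v x ^ 2) (v a₄) := by
      refine le_trans (le_of_eq hvx) ?_
      refine le_trans (Valuation.map_add v _ _) (max_le_max ?_ ?_)
      · have := XCore.val_four_mul_le v (x ^ 2)
        rwa [map_pow] at this
      · exact XCore.val_four_mul_le v a₄
    have hpos : 0 < v x := v.pos_iff.mpr hx
    rcases le_max_iff.1 hle with h | h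
    · right
      have h1 : (1 : Γ₀) ≤ v x := by
        have h' : v x * 1 ≤ v x * v x := by rwa [mul_one, ← sq]
        exact le_of_mul_le_mul_left h' hpos
      rw [min_eq_left h1, max_eq_right ha₄.le]
    · left
      rw [min_eq_right (h.trans ha₄.le), max_eq_left h]

end Fermat.Agent.S13.TwoAdic.XCoreU
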