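import Fermat.Agent.S13.TwoAdic.XCore.Basic
import Fermat.Agent.S05.Core.Dbl

/-!
# S13 / TwoAdic / XCoreU: field-level duplication rule without `v 2 = 1`

`r = (x² - a₄)² / D`, `D = 4x³ + b₂x² + 4a₄x`, `v b₂ = 1`, `0 < ε = v a₄ < 1`; only `v 4 ≤ 1`
is used.  Cases on `X = v x`:
* `1 ≤ X`: `v num = X⁴`, `v D ≤ X³`, so `1 ≤ v r`;
* `ε < X < 1`: `v D = X²` exactly, and the value-group lemmas of `S05/Core/Dbl.lean` apply;
* `X ≤ ε`: `v num = ε²`, `v D ≤ ε X`, so `1 ≤ v r`.
-/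

set_option autoImplicit false

namespace Fermat.Agent.S13.TwoAdic.XCoreU

open Fermat.Agent.S05 (fold qt clip URConcl)

/-- Field-level doubling rule. -/
theorem dbl_field2 {K : Type*} [Field K] {Γ₀ : Type*} [LinearOrderedCommGroupWithZero Γ₀]
    (v : Valuation K Γ₀) {b₂ a₄ x : K} (hb₂ : v b₂ = 1) (ha₄0 : a₄ ≠ 0)
    (ha₄ : v a₄ < 1) (hden : 4 * x ^ 3 + b₂ * x ^ 2 + 4 * a₄ * x ≠ 0) :
    clip (v a₄) (v ((x ^ 2 - a₄) ^ 2 / (4 * x ^ 3 + b₂ * x ^ 2 + 4 * a₄ * x))) =
      fold (v a₄) (clip (v a₄) (v x) * clip (v a₄) (v x)) := by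
  have hx0' : x ≠ 0 := by
    intro h
    apply hden
    rw [h]
    ring
  have hε0 : 0 < v a₄ := v.pos_iff.mpr ha₄0
  have hx0 : 0 < v x := v.pos_iff.mpr hx0'
  have hD0 : 0 < v (4 * x ^ 3 + b₂ * x ^ 2 + 4 * a₄ * x) := v.pos_iff.mpr hden
  have hX2 : v (x ^ 2) = v x ^ 2 := map_pow v x 2
  -- the three terms of the denominator
  have hT1 : v (4 * x ^ 3) ≤ v x * v x * v x := by
    refine (XCore.val_four_mul_le v _).trans (le_of_eq ?_)
    rw [map_pow, pow_succ, pow_two]
  have hT2 : v (b₂ * x ^ 2) = v x * v x := by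
    rw [map_mul, hb₂, one_mul, map_pow, pow_two]
  have hT3 : v (4 * a₄ * x) ≤ v a₄ * v x := by
    rw [mul_assoc]
    refine (XCore.val_four_mul_le v _).trans (le_of_eq ?_)
    rw [map_mul]
  rw [map_div₀, map_pow]
  rcases lt_or_ge (v x) 1 with hx1 | hx1
  · rcases lt_or_ge (v a₄) (v x) with hxε | hxε
    · -- `ε < v x < 1`: the `b₂`-term strictly dominates
      have hxx : v x * v x * v x < v x * v x := by
        calc v x * v x * v x < v x * v x * 1 := by
              rw [mul_lt_mul_iff_right₀ (mul_pos hx0 hx0)]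
              exact hx1
          _ = v x * v x := mul_one _
      have hεx : v a₄ * v x < v x * v x := by
        rw [mul_lt_mul_iff_left₀ hx0]
        exact hxε
      have hD : v (4 * x ^ 3 + b₂ * x ^ 2 + 4 * a₄ * x) = v x * v x * 1 := by
        have h12 : v (4 * x ^ 3 + b₂ * x ^ 2) = v x * v x := by
          rw [Valuation.map_add_eq_of_lt_right v (by rw [hT2]; exact hT1.trans_lt hxx), hT2]
        rw [Valuation.map_add_eq_of_lt_left v (by rw [h12]; exact hT3.trans_lt hεx), h12, mul_one]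
      rw [hD]
      rcases lt_trichotomy (v x ^ 2) (v a₄) with h | h | h
      · have hn : v (x ^ 2 - a₄) = v a₄ :=
          Valuation.map_sub_eq_of_lt_right v (by rw [hX2]; exact h)
        rw [hn]
        exact Fermat.Agent.S05.Dbl.case3b hxε hx1 h
      · have hn : v (x ^ 2 - a₄) ≤ v a₄ :=
          Valuation.map_sub_le v (by rw [hX2, h]) le_rfl
        exact Fermat.Agent.S05.Dbl.case3c hxε hx1 h hn
      · have hn : v (x ^ 2 - a₄) = v x ^ 2 := by
          rw [Valuation.map_sub_eq_of_lt_left v (by rw [hX2]; exact h), hX2]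
        rw [hn]
        exact Fermat.Agent.S05.Dbl.case3a hxε hx1 h
    · -- `v x ≤ ε`
      have hX2lt : v x ^ 2 < v a₄ := by
        calc v x ^ 2 = v x * v x := pow_two _
          _ ≤ v a₄ * v x := mul_le_mul' hxε le_rfl
          _ < v a₄ * 1 := by
              rw [mul_lt_mul_iff_right₀ hε0]
              exact hx1
          _ = v a₄ := mul_one _
      have hn : v (x ^ 2 - a₄) = v a₄ :=
        Valuation.map_sub_eq_of_lt_right v (by rw [hX2]; exact hX2lt)
      have h2 : v x * v x ≤ v a₄ * v x := mul_le_mul' hxε le_rfl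
      have h1 : v x * v x * v x ≤ v a₄ * v x :=
        (mul_le_of_le_one_right' hx1.le).trans h2
      have hD : v (4 * x ^ 3 + b₂ * x ^ 2 + 4 * a₄ * x) ≤ v a₄ * v x :=
        Valuation.map_add_le v
          (Valuation.map_add_le v (hT1.trans h1) (hT2.le.trans h2)) hT3
      have hr : (1 : Γ₀) ≤ v a₄ ^ 2 / v (4 * x ^ 3 + b₂ * x ^ 2 + 4 * a₄ * x) := by
        rw [le_div_iff₀ hD0, one_mul]
        exact hD.trans (le_of_le_of_eq (mul_le_mul' le_rfl hxε) (pow_two _).symm)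
      rw [hn, Fermat.Agent.S05.Dbl.clip_of_one_le ha₄.le hr,
        Fermat.Agent.S05.Dbl.clip_of_le ha₄.le hxε,
        Fermat.Agent.S05.Dbl.fold_mul_self hε0 ha₄]
  · -- `1 ≤ v x`
    have h1 : (1 : Γ₀) ≤ v x * v x := hx1.trans (le_mul_of_one_le_right' hx1)
    have hn : v (x ^ 2 - a₄) = v x * v x := by
      rw [Valuation.map_sub_eq_of_lt_left v (by rw [hX2, pow_two]; exact ha₄.trans_le h1), hX2,
        pow_two]
    have h2 : v x * v x ≤ v x * v x * v x := le_mul_of_one_le_right' hx1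
    have h3 : v a₄ * v x ≤ v x * v x * v x :=
      (mul_le_mul' (ha₄.le.trans h1) le_rfl)
    have hD : v (4 * x ^ 3 + b₂ * x ^ 2 + 4 * a₄ * x) ≤ v x * v x * v x :=
      Valuation.map_add_le v
        (Valuation.map_add_le v hT1 (hT2.le.trans h2)) (hT3.trans h3)
    have hr : (1 : Γ₀) ≤ (v x * v x) ^ 2 / v (4 * x ^ 3 + b₂ * x ^ 2 + 4 * a₄ * x) := by
      rw [le_div_iff₀ hD0, one_mul]
      refine hD.trans ?_
      calc v x * v x * v x ≤ v x * v x * (v x * v x) :=
            mul_le_mul' le_rfl (le_mul_of_one_le_right' hx1)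
        _ = (v x * v x) ^ 2 := (pow_two _).symm
    rw [hn, Fermat.Agent.S05.Dbl.clip_of_one_le ha₄.le hr,
      Fermat.Agent.S05.Dbl.clip_of_one_le ha₄.le hx1, mul_one,
      Fermat.Agent.S05.Dbl.fold_of_le ha₄.le]

end Fermat.Agent.S13.TwoAdic.XCoreU
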